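import Mathlib.Analysis.Complex.Polynomial.Basic
import Mathlib.Algebra.Polynomial.Eval.Irreducible
import Mathlib.RingTheory.Polynomial.Basic
import Mathlib.Tactic

/-!
# The irreducibility criteria of Cohn and Murty

The roots of a polynomial with small nonnegative digits as coefficients stay away from the base
(Brillhart, Filaseta and Odlyzko; Murty), so a proper factor would take a value of modulus more
than one there.
-/

set_option autoImplicit false

noncomputable section

open Finset Polynomial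

namespace FA.CohnCriterion

variable {f : ℤ[X]} {z : ℂ}

/-- The lower terms at a point outside the unit disc. -/
theorem tail_lt {H : ℝ} (hH : 0 < H) (c : ℕ → ℤ) (j : ℕ) (hc : ∀ i < j, |(c i : ℝ)| ≤ H)
    (hz : 1 < ‖z‖) : ‖∑ i ∈ range j, (c i : ℂ) * z ^ i‖ * (‖z‖ - 1) < H * ‖z‖ ^ j := by
  have h : ‖∑ i ∈ range j, (c i : ℂ) * z ^ i‖ ≤ H * ∑ i ∈ range j, ‖z‖ ^ i := by
    rw [mul_sum]
    refine (norm_sum_le _ _).trans (sum_le_sum fun i hi => ?_)
    rw [norm_mul, norm_pow, Complex.norm_intCast]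
    exact mul_le_mul_of_nonneg_right (hc i (mem_range.1 hi)) (by positivity)
  calc _ ≤ (H * ∑ i ∈ range j, ‖z‖ ^ i) * (‖z‖ - 1) :=
        mul_le_mul_of_nonneg_right h (sub_nonneg.2 hz.le)
    _ = H * (‖z‖ ^ j - 1) := by rw [mul_assoc, geom_sum_mul]
    _ < _ := by nlinarith

/-- The value is the top terms plus the tail. -/
theorem aeval_eq_sum (f : ℤ[X]) (z : ℂ) (k : ℕ) (hk : k ≤ f.natDegree + 1) :
    aeval z f = ∑ i ∈ range (f.natDegree + 1 - k), (f.coeff i : ℂ) * z ^ i +
      z ^ (f.natDegree + 1 - k) *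
        ∑ i ∈ range k, (f.coeff (f.natDegree + 1 - k + i) : ℂ) * z ^ i := by
  rw [aeval_eq_sum_range, mul_sum]
  simp only [zsmul_eq_mul]
  conv_lhs => rw [show f.natDegree + 1 = f.natDegree + 1 - k + k by omega, sum_range_add]
  refine congrArg₂ _ rfl (sum_congr rfl fun i _ => ?_)
  rw [pow_add]
  ring

/-- Top terms of size at least `|z| ^ (k - 1)` bound a root. -/
theorem top_bound {H : ℝ} (hH : 0 < H) {k : ℕ} (hk : k ≤ f.natDegree)
    (hc : ∀ i, i + k < f.natDegree → |(f.coeff i : ℝ)| ≤ H) (hf : aeval z f = 0) (hz : 1 < ‖z‖)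
    (htop : ‖z‖ ^ k ≤ ‖∑ i ∈ range (k + 1), (f.coeff (f.natDegree - k + i) : ℂ) * z ^ i‖) :
    ‖z‖ ^ k * (‖z‖ - 1) < H := by
  rw [aeval_eq_sum f z (k + 1) (by omega),
    show f.natDegree + 1 - (k + 1) = f.natDegree - k by omega, add_eq_zero_iff_neg_eq] at hf
  have h := tail_lt hH (fun i => f.coeff i) (f.natDegree - k) (fun i hi => hc i (by omega)) hz
  rw [← norm_neg, hf, norm_mul, norm_pow] at h
  have hpos : 0 < ‖z‖ ^ (f.natDegree - k) := pow_pos (zero_lt_one.trans hz) _
  refine lt_of_mul_lt_mul_left ?_ hpos.le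
  calc ‖z‖ ^ (f.natDegree - k) * (‖z‖ ^ k * (‖z‖ - 1))
      = ‖z‖ ^ (f.natDegree - k) * ‖z‖ ^ k * (‖z‖ - 1) := by ring
    _ ≤ _ := mul_le_mul_of_nonneg_right (mul_le_mul_of_nonneg_left htop hpos.le)
        (sub_nonneg.2 hz.le)
    _ < _ := h.trans_eq (mul_comm _ _)

/-- Roots to the right with modulus above one. -/
theorem root_bound_two {H : ℝ} (hH : 0 < H) (hd : 1 ≤ f.natDegree)
    (h1 : 1 ≤ f.leadingCoeff) (h2 : 0 ≤ f.coeff (f.natDegree - 1))
    (hc : ∀ i, i + 1 < f.natDegree → |(f.coeff i : ℝ)| ≤ H) (hf : aeval z f = 0)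
    (hre : 0 < z.re) (hz : 1 < ‖z‖) : ‖z‖ * (‖z‖ - 1) < H := by
  have h := top_bound hH hd hc hf hz ?_
  · rwa [pow_one] at h
  have e : f.natDegree - 1 + 1 = f.natDegree := Nat.sub_add_cancel hd
  rw [pow_one, sum_range_succ, sum_range_one, add_zero, e, pow_zero, mul_one, pow_one]
  have c1 : (1 : ℝ) ≤ f.coeff f.natDegree := by exact_mod_cast h1
  have c2 : (0 : ℝ) ≤ f.coeff (f.natDegree - 1) := by exact_mod_cast h2
  rw [← sq_le_sq₀ (norm_nonneg _) (norm_nonneg _), ← Complex.normSq_eq_norm_sq,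
    ← Complex.normSq_eq_norm_sq, Complex.normSq_apply, Complex.normSq_apply]
  simp only [Complex.add_re, Complex.add_im, Complex.mul_re, Complex.mul_im, Complex.intCast_re,
    Complex.intCast_im]
  nlinarith [mul_nonneg (mul_nonneg c2 (zero_le_one.trans c1)) hre.le,
    mul_le_mul_of_nonneg_right (mul_le_mul c1 c1 zero_le_one (zero_le_one.trans c1))
      (add_nonneg (mul_self_nonneg z.re) (mul_self_nonneg z.im))]

/-- Roots in the sector around the positive axis, for digits zero and one. -/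
theorem root_bound_three (hd : 2 ≤ f.natDegree) (h1 : 1 ≤ f.leadingCoeff)
    (hc : ∀ i, 0 ≤ f.coeff i ∧ f.coeff i ≤ 1) (hf : aeval z f = 0) (hre : 0 < z.re)
    (hre2 : 0 ≤ (z ^ 2).re) (hz : 1 < ‖z‖) : ‖z‖ ^ 2 * (‖z‖ - 1) < 1 := by
  refine top_bound one_pos hd (fun i _ => ?_) hf hz ?_
  · rw [abs_of_nonneg (by exact_mod_cast (hc i).1)]
    exact_mod_cast (hc i).2
  have e : f.natDegree - 2 + 2 = f.natDegree := Nat.sub_add_cancel hd
  rw [sum_range_succ, sum_range_succ, sum_range_one, e]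
  set T := (f.coeff (f.natDegree - 2 + 0) : ℂ) * z ^ 0 +
    (f.coeff (f.natDegree - 2 + 1) : ℂ) * z ^ 1 + (f.coeff f.natDegree : ℂ) * z ^ 2
  have c1 : (1 : ℝ) ≤ f.coeff f.natDegree := by exact_mod_cast h1
  have c2 : (0 : ℝ) ≤ f.coeff (f.natDegree - 2 + 1) := by exact_mod_cast (hc _).1
  have c3 : (0 : ℝ) ≤ f.coeff (f.natDegree - 2 + 0) := by exact_mod_cast (hc _).1
  have hr : ‖z‖ ^ 2 = z.re * z.re + z.im * z.im := by
    rw [← Complex.normSq_eq_norm_sq, Complex.normSq_apply]
  have key : (‖z‖ ^ 2) ^ 2 ≤ (T * starRingEnd ℂ (z ^ 2)).re := by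
    rw [hr]
    simp only [T, pow_two, pow_one, pow_zero, Complex.add_re, Complex.add_im, Complex.mul_re,
      Complex.mul_im, Complex.intCast_re, Complex.intCast_im, Complex.one_re, Complex.one_im,
      Complex.conj_re, Complex.conj_im] at hre2 ⊢
    nlinarith [mul_nonneg c3 hre2,
      mul_nonneg (mul_nonneg c2 hre.le) (add_nonneg (mul_self_nonneg z.re) (mul_self_nonneg z.im)),
      mul_nonneg (sub_nonneg.2 c1)
        (mul_self_nonneg (z.re * z.re + z.im * z.im))]
  have h := key.trans (Complex.re_le_norm _)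
  rw [norm_mul, Complex.norm_conj, norm_pow, pow_two (‖z‖ ^ 2)] at h
  exact le_of_mul_le_mul_right h (pow_pos (zero_lt_one.trans hz) 2)

/-- A factor with the value `± 1` at a point far from all its roots is constant. -/
theorem isUnit_of_roots {g : ℤ[X]} {b : ℤ} (hg1 : |g.eval b| = 1)
    (hlt : g.natDegree ≠ 0 → 1 < |g.eval b|) : IsUnit g := by
  have hd : g.natDegree = 0 := by
    by_contra h
    exact (hlt h).ne' hg1
  rw [eq_C_of_natDegree_eq_zero hd] at hg1 ⊢
  rw [eval_C] at hg1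
  exact isUnit_C.2 (Int.isUnit_iff.2 ((abs_eq zero_le_one).1 hg1))

theorem roots_prod {g : ℤ[X]} (b : ℤ) : ((|g.eval b| : ℤ) : ℝ) =
    ‖(g.map (Int.castRingHom ℂ)).leadingCoeff‖ *
      ((g.map (Int.castRingHom ℂ)).roots.map fun a => ‖(b : ℂ) - a‖).prod := by
  have h : ((g.eval b : ℤ) : ℂ) = (g.map (Int.castRingHom ℂ)).eval (b : ℂ) := by
    rw [eval_map, eval₂_at_intCast]
    simp
  rw [Int.cast_abs, ← Complex.norm_intCast, h,
    (IsAlgClosed.splits (g.map (Int.castRingHom ℂ))).eval_eq_prod_roots, norm_mul]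
  congr 1
  induction (g.map (Int.castRingHom ℂ)).roots using Multiset.induction_on with
  | empty => simp
  | cons a s ih => simp [ih]

theorem one_le_norm_leadingCoeff {g : ℤ[X]} (hg : g ≠ 0) :
    1 ≤ ‖(g.map (Int.castRingHom ℂ)).leadingCoeff‖ := by
  rw [leadingCoeff_map_of_injective Int.cast_injective, eq_intCast, Complex.norm_intCast]
  exact_mod_cast Int.one_le_abs (leadingCoeff_ne_zero.2 hg)

theorem aeval_of_mem_roots {f g : ℤ[X]} (hdvd : g ∣ f) {a : ℂ}
    (ha : a ∈ (g.map (Int.castRingHom ℂ)).roots) : aeval a f = 0 := by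
  obtain ⟨h, rfl⟩ := hdvd
  have := (mem_roots'.1 ha).2
  rw [IsRoot.def, eval_map] at this
  rw [map_mul, aeval_def, show algebraMap ℤ ℂ = Int.castRingHom ℂ from rfl, this, zero_mul]

/-- The test: `|f b|` prime and every factor of positive degree large at `b`. -/
theorem irreducible_of_test {f : ℤ[X]} {b : ℤ} (hp : (f.eval b).natAbs.Prime)
    (hlarge : ∀ g, g ∣ f → g.natDegree ≠ 0 → 1 < |g.eval b|) : Irreducible f := by
  refine irreducible_iff.2 ⟨fun hu => hp.ne_one ?_, fun g h hgh => ?_⟩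
  · exact Int.isUnit_iff_natAbs_eq.1 (hu.map (evalRingHom b))
  have hmul : (f.eval b).natAbs = (g.eval b).natAbs * (h.eval b).natAbs := by
    rw [hgh, eval_mul, Int.natAbs_mul]
  rw [hmul, Nat.prime_mul_iff] at hp
  have habs : ∀ q : ℤ[X], (q.eval b).natAbs = 1 → |q.eval b| = 1 := fun q hq => by
    rw [Int.abs_eq_natAbs, hq, Nat.cast_one]
  rcases hp with ⟨-, h1⟩ | ⟨-, h1⟩
  · exact Or.inr (isUnit_of_roots (habs h h1) (hlarge h (hgh ▸ dvd_mul_left h g)))
  · exact Or.inl (isUnit_of_roots (habs g h1) (hlarge g (hgh ▸ dvd_mul_right g h)))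

/-- A nonempty product of numbers above one is above one. -/
theorem one_lt_prod {ι : Type*} (u : ι → ℝ) : ∀ {s : Multiset ι}, s ≠ 0 → (∀ a ∈ s, 1 < u a) →
    1 < (s.map u).prod := by
  intro s
  induction s using Multiset.induction_on with
  | empty => exact fun h => absurd rfl h
  | cons a s ih =>
    intro _ hu
    rw [Multiset.map_cons, Multiset.prod_cons]
    rcases eq_or_ne s 0 with rfl | hs
    · simpa using hu a (Multiset.mem_cons_self a 0)
    · exact one_lt_mul_of_lt_of_le (hu a (Multiset.mem_cons_self a s))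
        (ih hs fun b hb => hu b (Multiset.mem_cons_of_mem hb)).le

/-- **Murty's criterion.** -/
theorem murty {f : ℤ[X]} {H n : ℕ} (hd : 1 ≤ f.natDegree)
    (hH : ∀ i < f.natDegree, |f.coeff i| ≤ H * |f.leadingCoeff|) (hn : H + 2 ≤ n)
    (hp : (f.eval (n : ℤ)).natAbs.Prime) : Irreducible f := by
  refine irreducible_of_test hp fun g hg hgd => ?_
  have hf0 : f ≠ 0 := fun h => by simp [h] at hd
  have hg0 : g ≠ 0 := fun h => hgd (by simp [h])
  have hl : (0 : ℝ) < |(f.leadingCoeff : ℝ)| :=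
    abs_pos.2 (Int.cast_ne_zero.2 (leadingCoeff_ne_zero.2 hf0))
  have hroot : ∀ a ∈ (g.map (Int.castRingHom ℂ)).roots, ‖a‖ < (H : ℝ) + 1 := by
    intro a ha
    by_contra! hle
    have hHr : (0 : ℝ) ≤ H := Nat.cast_nonneg H
    have he := aeval_of_mem_roots hg ha
    rcases Nat.eq_zero_or_pos H with rfl | hH0
    · rw [aeval_eq_sum_range, sum_range_succ, sum_eq_zero fun i hi => by
        have := hH i (mem_range.1 hi)
        simp only [Nat.cast_zero, zero_mul, abs_nonpos_iff] at this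
        simp [this], zero_add, zsmul_eq_mul, mul_eq_zero] at he
      rcases he with he | he
      · exact hl.ne' (by rw [Int.cast_eq_zero] at he; rw [leadingCoeff, he]; simp)
      · rw [pow_eq_zero_iff (by omega)] at he
        norm_num [he] at hle
    have hH1 : (1 : ℝ) ≤ H := by exact_mod_cast hH0
    rw [aeval_eq_sum f a 1 (by omega), Nat.add_sub_cancel, sum_range_one, add_zero, pow_zero,
      mul_one, add_eq_zero_iff_neg_eq] at he
    have h := tail_lt (mul_pos (zero_lt_one.trans_le hH1) hl) (fun i => f.coeff i) f.natDegree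
      (fun i hi => by exact_mod_cast hH i hi) (show 1 < ‖a‖ by linarith)
    rw [← norm_neg, he, norm_mul, norm_pow, Complex.norm_intCast] at h
    have hpos : 0 < ‖a‖ ^ f.natDegree := pow_pos (by linarith) _
    have h' : ‖a‖ ^ f.natDegree * |(f.leadingCoeff : ℝ)| * (H : ℝ) ≤
        ‖a‖ ^ f.natDegree * |(f.leadingCoeff : ℝ)| * (‖a‖ - 1) :=
      mul_le_mul_of_nonneg_left (by linarith) (by positivity)
    rw [leadingCoeff] at h h'
    nlinarith
  suffices (1 : ℝ) < ((|g.eval (n : ℤ)| : ℤ) : ℝ) by exact_mod_cast this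
  rw [roots_prod]
  refine one_lt_mul_of_le_of_lt (one_le_norm_leadingCoeff hg0) ?_
  refine one_lt_prod _ ?_ fun a ha => ?_
  · intro h0
    have := IsAlgClosed.card_roots_map_eq_natDegree_of_injective (p := g)
      (f := Int.castRingHom ℂ) Int.cast_injective
    rw [h0, Multiset.card_zero] at this
    exact hgd this.symm
  have h := norm_sub_norm_le ((n : ℤ) : ℂ) a
  rw [Complex.norm_intCast] at h
  have : (H : ℝ) + 2 ≤ n := by exact_mod_cast hn
  have := hroot a ha
  push_cast at h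
  rw [Nat.abs_cast] at h
  push_cast
  linarith

end FA.CohnCriterion

end
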