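import Fermat.Agent.CohnCriterion.Basic

/-!
# Cohn's criterion in every base
-/

set_option autoImplicit false

noncomputable section

open Finset Polynomial

namespace FA.CohnCriterion

/-- A product strictly dominated factor by factor. -/
theorem prod_lt_prod {ι : Type*} (u v : ι → ℝ) : ∀ {s : Multiset ι}, s ≠ 0 →
    (∀ a ∈ s, 0 ≤ v a ∧ v a < u a) → 0 ≤ (s.map v).prod ∧ (s.map v).prod < (s.map u).prod := by
  intro s
  induction s using Multiset.induction_on with
  | empty => exact fun h => absurd rfl h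
  | cons a s ih =>
    intro _ hu
    simp only [Multiset.map_cons, Multiset.prod_cons]
    obtain ⟨h0, h1⟩ := hu a (Multiset.mem_cons_self a s)
    rcases eq_or_ne s 0 with rfl | hs
    · simpa using ⟨h0, h1⟩
    · obtain ⟨i0, i1⟩ := ih hs fun b hb => hu b (Multiset.mem_cons_of_mem hb)
      exact ⟨mul_nonneg h0 i0, mul_lt_mul'' h1 i1 h0 i0⟩

variable {f : ℤ[X]}

/-- Roots stay away from a base at least three. -/
theorem one_lt_dist {b : ℕ} (hb : 3 ≤ b) (hd : 1 ≤ f.natDegree) (h1 : 1 ≤ f.leadingCoeff)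
    (hc : ∀ i, 0 ≤ f.coeff i ∧ f.coeff i < b) {a : ℂ} (ha : aeval a f = 0) :
    1 < ‖(b : ℂ) - a‖ := by
  have hb' : (3 : ℝ) ≤ b := by exact_mod_cast hb
  have h := Complex.re_le_norm ((b : ℂ) - a)
  rw [Complex.sub_re, Complex.natCast_re] at h
  have h' := norm_sub_norm_le (b : ℂ) a
  rw [Complex.norm_natCast] at h'
  rcases le_or_gt a.re 0 with hre | hre
  · linarith
  rcases le_or_gt ‖a‖ 1 with hr | hr
  · linarith
  have hlt := root_bound_two (H := (b : ℝ) - 1) (by linarith) hd h1 (hc _).1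
    (fun i _ => by
      rw [abs_of_nonneg (by exact_mod_cast (hc i).1)]
      have : f.coeff i + 1 ≤ b := (hc i).2
      have : (f.coeff i : ℝ) + 1 ≤ b := by exact_mod_cast this
      linarith) ha hre hr
  rcases lt_or_ge ‖a‖ ((b : ℝ) - 1) with hlt' | hge
  · linarith
  · nlinarith [mul_le_mul_of_nonneg_right hge (show (0 : ℝ) ≤ ‖a‖ - 1 by linarith)]

/-- For digits zero and one the roots lie left of `3 / 2`. -/
theorem re_lt_three_halves (hd : 1 ≤ f.natDegree) (h1 : 1 ≤ f.leadingCoeff)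
    (hc : ∀ i, 0 ≤ f.coeff i ∧ f.coeff i ≤ 1) {a : ℂ} (ha : aeval a f = 0) : a.re < 3 / 2 := by
  by_contra! hre
  rcases Nat.lt_or_ge f.natDegree 2 with hd2 | hd2
  · have hd1 : f.natDegree = 1 := by omega
    rw [aeval_eq_sum_range, hd1, sum_range_succ, sum_range_one] at ha
    have := congrArg Complex.re ha
    rw [zsmul_eq_mul, zsmul_eq_mul, pow_zero, pow_one, mul_one, Complex.add_re, Complex.mul_re,
      Complex.intCast_re, Complex.intCast_re, Complex.intCast_im, zero_mul, sub_zero,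
      Complex.zero_re] at this
    have c0 : (0 : ℝ) ≤ f.coeff 0 := by exact_mod_cast (hc 0).1
    have c1 : (1 : ℝ) ≤ f.coeff 1 := by
      rw [leadingCoeff, hd1] at h1
      exact_mod_cast h1
    nlinarith
  have hr : 3 / 2 ≤ ‖a‖ := hre.trans (Complex.re_le_norm a)
  have hlt := root_bound_two (H := 1) one_pos hd h1 (hc _).1 (fun i _ => by
    rw [abs_of_nonneg (by exact_mod_cast (hc i).1)]
    exact_mod_cast (hc i).2) ha (by linarith) (by linarith)
  have hsq : ‖a‖ ^ 2 = a.re * a.re + a.im * a.im := by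
    rw [← Complex.normSq_eq_norm_sq, Complex.normSq_apply]
  have hre2 : 0 ≤ (a ^ 2).re := by
    rw [pow_two, Complex.mul_re]
    nlinarith
  have := root_bound_three hd2 h1 hc ha (by linarith) hre2 (by linarith)
  nlinarith

/-- **Cohn's criterion.** -/
theorem cohn {b n : ℕ} (hb : 2 ≤ b) (a : ℕ → ℕ) (ha : ∀ i ≤ n, a i < b)
    (hp : (∑ i ∈ range (n + 1), a i * b ^ i).Prime) :
    Irreducible (∑ i ∈ range (n + 1), C (a i : ℤ) * X ^ i) := by
  set f : ℤ[X] := ∑ i ∈ range (n + 1), C (a i : ℤ) * X ^ i with hf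
  have hev : ∀ t : ℤ, f.eval t = ∑ i ∈ range (n + 1), (a i : ℤ) * t ^ i := fun t => by
    simp [hf, eval_finsetSum]
  have hc : ∀ i, 0 ≤ f.coeff i ∧ f.coeff i < (b : ℤ) := fun i => by
    rw [hf, finsetSum_coeff]
    simp only [coeff_C_mul, coeff_X_pow, mul_ite, mul_one, mul_zero, sum_ite_eq, mem_range]
    split_ifs with h
    · exact ⟨Int.natCast_nonneg _, by exact_mod_cast ha i (by omega)⟩
    · exact ⟨le_rfl, by exact_mod_cast zero_lt_two.trans_le hb⟩
  have heb : f.eval (b : ℤ) = ((∑ i ∈ range (n + 1), a i * b ^ i : ℕ) : ℤ) := by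
    rw [hev]
    push_cast
    rfl
  have hf0 : f ≠ 0 := fun h => by
    rw [h, eval_zero] at heb
    exact hp.ne_zero (by exact_mod_cast heb.symm)
  have h1 : 1 ≤ f.leadingCoeff := (hc _).1.lt_of_ne (leadingCoeff_ne_zero.2 hf0).symm
  refine irreducible_of_test (b := (b : ℤ)) (by rwa [heb, Int.natAbs_natCast]) fun g hg hgd => ?_
  have hg0 : g ≠ 0 := fun h => hgd (by simp [h])
  have hd : 1 ≤ f.natDegree :=
    (Nat.one_le_iff_ne_zero.2 hgd).trans (natDegree_le_of_dvd hg hf0)
  have hne : (g.map (Int.castRingHom ℂ)).roots ≠ 0 := fun h0 => by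
    have := IsAlgClosed.card_roots_map_eq_natDegree_of_injective (p := g)
      (f := Int.castRingHom ℂ) Int.cast_injective
    rw [h0, Multiset.card_zero] at this
    exact hgd this.symm
  suffices (1 : ℝ) < ((|g.eval (b : ℤ)| : ℤ) : ℝ) by exact_mod_cast this
  rw [roots_prod]
  rcases hb.lt_or_eq with hb3 | rfl
  · refine one_lt_mul_of_le_of_lt (one_le_norm_leadingCoeff hg0) (one_lt_prod _ hne fun z hz => ?_)
    simpa using one_lt_dist hb3 hd h1 hc (aeval_of_mem_roots hg hz)
  -- compare with the value at `1`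
  have hpos : (0 : ℤ) < f.eval 1 := by
    rw [hev]
    simp only [one_pow, mul_one]
    refine lt_of_le_of_ne (sum_nonneg fun i _ => Int.natCast_nonneg _) fun h => hp.ne_zero ?_
    have h0 := (sum_eq_zero_iff_of_nonneg fun i _ => Int.natCast_nonneg _).1 h.symm
    exact sum_eq_zero fun i hi => by rw [Int.natCast_eq_zero.1 (h0 i hi), zero_mul]
  have hg1 : (1 : ℝ) ≤ ((|g.eval (1 : ℤ)| : ℤ) : ℝ) := by
    have : g.eval 1 ≠ 0 := fun h => by
      obtain ⟨q, hq⟩ := hg
      rw [hq, eval_mul, h, zero_mul] at hpos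
      exact lt_irrefl 0 hpos
    exact_mod_cast Int.one_le_abs this
  rw [roots_prod] at hg1
  refine hg1.trans_lt (mul_lt_mul_of_pos_left ?_
    (zero_lt_one.trans_le (one_le_norm_leadingCoeff hg0)))
  refine (prod_lt_prod _ _ hne fun z hz => ⟨norm_nonneg _, ?_⟩).2
  have hre := re_lt_three_halves hd h1
    (fun i => ⟨(hc i).1, Int.lt_add_one_iff.1 (by simpa using (hc i).2)⟩)
    (aeval_of_mem_roots hg hz)
  rw [← sq_lt_sq₀ (norm_nonneg _) (norm_nonneg _), ← Complex.normSq_eq_norm_sq,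
    ← Complex.normSq_eq_norm_sq, Complex.normSq_apply, Complex.normSq_apply]
  norm_num
  linarith

end FA.CohnCriterion

end
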